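import Fermat.Agent.S21.ECount.Proj

/-!
# Project ES, package E-count: determinant of `∑ t^(a r) • π_r`

For an idempotent matrix `π` there is `m : ℕ` with `trace π = m` and `det (1 + x • π) = (1+x)^m`.
Consequently `det (∑_r t^(a r) • specProj r) = t ^ (∑_r a r * m r)` with `m r = trace (specProj r)`.
-/

set_option autoImplicit false

namespace Fermat.Agent.S21.ECount

open Finset Matrix Polynomial

section

variable {K : Type*} [Field K]

/-- a polynomial function which is multiplicative is a monomial -/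
theorem poly_eq_X_pow_of_mul [Infinite K] (Q : K[X]) (h1 : Q.eval 1 = 1)
    (hmul : ∀ u v, Q.eval (u * v) = Q.eval u * Q.eval v) : Q = X ^ Q.natDegree := by
  have hQ0 : Q ≠ 0 := by
    intro h; rw [h] at h1; simp at h1
  have hlc : Q.leadingCoeff ≠ 0 := leadingCoeff_ne_zero.mpr hQ0
  have key : ∀ v : K, Q.eval v = v ^ Q.natDegree := by
    intro v
    have hpoly : Q.comp (C v * X) = C (Q.eval v) * Q := by
      apply Polynomial.funext
      intro u
      rw [eval_comp, eval_mul, eval_C, eval_X, eval_mul, eval_C, hmul]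
    have := congrArg (fun p => p.coeff Q.natDegree) hpoly
    simp only [comp_C_mul_X_coeff, coeff_C_mul, coeff_natDegree] at this
    have h2 : Q.leadingCoeff * v ^ Q.natDegree = Q.leadingCoeff * Q.eval v := by
      rw [this]; ring
    exact (mul_left_cancel₀ hlc h2).symm
  apply Polynomial.funext
  intro v
  rw [key, eval_pow, eval_X]

variable {ι : Type*} [Fintype ι] [DecidableEq ι]

theorem eval_det_one_add_X_smul (π : Matrix ι ι K) (x : K) :
    (det (1 + (X : K[X]) • π.map C)).eval x = det (1 + x • π) := by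
  have := RingHom.map_det (evalRingHom x) (1 + (X : K[X]) • π.map C)
  rw [coe_evalRingHom] at this
  rw [this]
  congr 1
  ext i j
  simp only [RingHom.mapMatrix_apply, Matrix.map_apply, Matrix.add_apply, Matrix.smul_apply,
    coe_evalRingHom, eval_add, smul_eq_mul, eval_mul, eval_X, eval_C, Matrix.one_apply]
  split_ifs <;> simp

/-- determinant of `1 + x • π` for an idempotent `π` -/
theorem det_one_add_smul_idem [CharZero K] (π : Matrix ι ι K) (hπ : π * π = π) :
    ∃ m : ℕ, (m : K) = trace π ∧ ∀ x : K, det (1 + x • π) = (1 + x) ^ m := by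
  set P : K[X] := det (1 + (X : K[X]) • π.map C) with hP
  have hPe : ∀ x, P.eval x = det (1 + x • π) := eval_det_one_add_X_smul π
  set Q : K[X] := P.comp (X - 1) with hQ
  have hQe : ∀ u, Q.eval u = det (1 + (u - 1) • π) := by
    intro u
    rw [hQ, eval_comp, hPe]
    simp
  have hQ1 : Q.eval 1 = 1 := by
    rw [hQe]; simp
  have hQmul : ∀ u v, Q.eval (u * v) = Q.eval u * Q.eval v := by
    intro u v
    rw [hQe, hQe, hQe, ← det_mul]
    congr 1
    rw [Matrix.add_mul, Matrix.mul_add, Matrix.mul_add, Matrix.one_mul, Matrix.mul_one,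
      Matrix.one_mul, Matrix.smul_mul, Matrix.mul_smul, hπ, smul_smul, add_assoc, ← add_smul,
      ← add_smul]
    congr 2
    ring
  have hQX := poly_eq_X_pow_of_mul Q hQ1 hQmul
  set m := Q.natDegree with hm
  have hPx : ∀ x, P.eval x = (1 + x) ^ m := by
    intro x
    have : P.eval x = Q.eval (x + 1) := by
      rw [hQe, hPe]; simp
    rw [this, hQX, eval_pow, eval_X, add_comm]
  have hPpoly : P = (1 + X) ^ m := by
    apply Polynomial.funext
    intro x
    rw [hPx, eval_pow, eval_add, eval_one, eval_X]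
  refine ⟨m, ?_, fun x => by rw [← hPe, hPx]⟩
  have htr := derivative_det_one_add_X_smul π
  rw [← hP, hPpoly] at htr
  rw [← htr, derivative_pow]
  simp

/-- sum of scaled orthogonal idempotents as `1 + ∑ (c r - 1) • π r`, determinant by induction -/
theorem det_one_add_sum_smul_orth [CharZero K] (n : ℕ) (π : ℕ → Matrix ι ι K)
    (hidem : ∀ r < n, π r * π r = π r)
    (horth : ∀ r < n, ∀ s < n, r ≠ s → π r * π s = 0) :
    ∃ m : ℕ → ℕ, (∀ r < n, (m r : K) = trace (π r)) ∧
      ∀ c : ℕ → K, det (1 + ∑ r ∈ range n, (c r - 1) • π r) = ∏ r ∈ range n, c r ^ m r := by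
  classical
  have hex : ∀ r, ∃ m : ℕ, r < n → ((m : K) = trace (π r) ∧
      ∀ x : K, det (1 + x • π r) = (1 + x) ^ m) := by
    intro r
    by_cases hr : r < n
    · obtain ⟨m, h1, h2⟩ := det_one_add_smul_idem (π r) (hidem r hr)
      exact ⟨m, fun _ => ⟨h1, h2⟩⟩
    · exact ⟨0, fun h => absurd h hr⟩
  choose m hm using hex
  refine ⟨m, fun r hr => (hm r hr).1, fun c => ?_⟩
  have key : ∀ j ≤ n, det (1 + ∑ r ∈ range j, (c r - 1) • π r) = ∏ r ∈ range j, c r ^ m r := by
    intro j
    induction j with
    | zero => intro _; simp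
    | succ j ih =>
      intro hj
      have hj' : j < n := hj
      rw [Finset.sum_range_succ, Finset.prod_range_succ, ← ih (by omega)]
      have h1 : det (1 + (c j - 1) • π j) = c j ^ m j := by
        rw [(hm j hj').2]; congr 1; ring
      rw [← h1, ← det_mul]
      congr 1
      rw [Matrix.add_mul, Matrix.mul_add, Matrix.mul_add, Matrix.one_mul, Matrix.mul_one,
        Matrix.one_mul, Finset.sum_mul]
      have hz : ∑ r ∈ range j, ((c r - 1) • π r) * ((c j - 1) • π j) = 0 := by
        refine Finset.sum_eq_zero fun r hr => ?_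
        have hrj : r < j := Finset.mem_range.mp hr
        rw [Matrix.smul_mul, Matrix.mul_smul, horth r (by omega) j hj' (by omega)]
        simp
      rw [hz, add_zero]
      abel
  exact key n le_rfl

theorem det_sum_pow_specProj [CharZero K] (P : Matrix ι ι K) (n : ℕ) (ζ : K) (hP : P ^ n = 1)
    (hζ : IsPrimitiveRoot ζ n) (hn : 0 < n) :
    ∃ m : ℕ → ℕ, (∀ r < n, (m r : K) = trace (specProj P n ζ r)) ∧
      ∀ (a : ℕ → ℕ) (t : K), det (∑ r ∈ range n, t ^ a r • specProj P n ζ r) =
        t ^ (∑ r ∈ range n, a r * m r) := by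
  obtain ⟨m, hm, hdet⟩ := det_one_add_sum_smul_orth n (fun r => specProj P n ζ r)
    (fun r hr => specProj_idem P n ζ hP hζ hr)
    (fun r hr s hs hrs => specProj_orth P n ζ hP hζ hr hs hrs)
  refine ⟨m, hm, fun a t => ?_⟩
  have h1 : ∑ r ∈ range n, t ^ a r • specProj P n ζ r =
      1 + ∑ r ∈ range n, (t ^ a r - 1) • specProj P n ζ r := by
    simp_rw [sub_smul, one_smul]
    rw [Finset.sum_sub_distrib, sum_specProj P n ζ hζ hn]
    abel
  rw [h1, hdet (fun r => t ^ a r), ← Finset.prod_pow_eq_pow_sum]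
  refine Finset.prod_congr rfl fun r _ => ?_
  rw [← pow_mul]

end

end Fermat.Agent.S21.ECount
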