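import Mathlib

/-!
# Project ES, package E-count: spectral projectors of a matrix of finite order

For a square matrix `P` with `P ^ n = 1` over a field containing a primitive `n`-th root of unity
`ζ`, the matrices `specProj P n ζ r = n⁻¹ ∑_{k<n} ζ^(-rk) P^k` (`r < n`) are a complete system of
orthogonal idempotents with `P * specProj r = ζ^r • specProj r`.
-/

set_option autoImplicit false

namespace Fermat.Agent.S21.ECount

open Finset Matrix

section Proj

variable {X : Type*} [Fintype X] [DecidableEq X] {K : Type*} [Field K]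

/-- spectral projector of `P` for the eigenvalue `ζ ^ r` -/
noncomputable def specProj (P : Matrix X X K) (n : ℕ) (ζ : K) (r : ℕ) : Matrix X X K :=
  (n : K)⁻¹ • ∑ k ∈ range n, (ζ⁻¹) ^ (r * k) • P ^ k

/-- geometric sum of roots of unity -/
theorem sum_root_pow {n : ℕ} {ζ : K} (hζ : IsPrimitiveRoot ζ n) {r s : ℕ} (hr : r < n)
    (hs : s < n) :
    ∑ k ∈ range n, (ζ⁻¹) ^ (r * k) * ζ ^ (s * k) = if r = s then (n : K) else 0 := by
  have hn : 0 < n := by omega
  have hζ0 : ζ ≠ 0 := hζ.ne_zero hn.ne'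
  set x : K := (ζ⁻¹) ^ r * ζ ^ s with hx
  have hterm : ∀ k, (ζ⁻¹) ^ (r * k) * ζ ^ (s * k) = x ^ k := by
    intro k
    rw [hx, mul_pow, ← pow_mul, ← pow_mul]
  simp_rw [hterm]
  have hxn : x ^ n = 1 := by
    rw [hx, mul_pow, ← pow_mul, ← pow_mul, mul_comm r n, mul_comm s n, pow_mul, pow_mul,
      inv_pow, hζ.pow_eq_one]
    simp
  split_ifs with h
  · subst h
    have : x = 1 := by
      rw [hx, inv_pow]
      exact inv_mul_cancel₀ (pow_ne_zero _ hζ0)
    simp [this]
  · have hx1 : x ≠ 1 := by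
      intro h1
      apply h
      have h2 : ζ ^ s = ζ ^ r := by
        have := h1
        rw [hx, inv_pow] at this
        field_simp at this
        exact this
      exact (hζ.pow_inj hs hr h2).symm
    rw [geom_sum_eq hx1, hxn, sub_self, zero_div]

variable (P : Matrix X X K) (n : ℕ) (ζ : K)

theorem pow_mul_specProj_aux (hP : P ^ n = 1) (hζ : IsPrimitiveRoot ζ n) (hn : 0 < n) (r : ℕ) :
    P * ∑ k ∈ range n, (ζ⁻¹) ^ (r * k) • P ^ k =
      ζ ^ r • ∑ k ∈ range n, (ζ⁻¹) ^ (r * k) • P ^ k := by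
  have hζ0 : ζ ≠ 0 := hζ.ne_zero hn.ne'
  have hshift : ∀ k, P * ((ζ⁻¹) ^ (r * k) • P ^ k) =
      ζ ^ r • ((ζ⁻¹) ^ (r * (k + 1)) • P ^ (k + 1)) := by
    intro k
    rw [Matrix.mul_smul, smul_smul, ← pow_succ']
    congr 1
    rw [mul_add, mul_one, pow_add, inv_pow ζ r]
    field_simp
  rw [Finset.mul_sum, Finset.smul_sum]
  simp_rw [hshift]
  rw [← Finset.smul_sum, ← Finset.smul_sum]
  congr 1
  have h1 := Finset.sum_range_succ' (fun k => (ζ⁻¹) ^ (r * k) • P ^ k) n
  have h2 := Finset.sum_range_succ (fun k => (ζ⁻¹) ^ (r * k) • P ^ k) n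
  have h0 : (ζ⁻¹) ^ (r * n) • P ^ n = (ζ⁻¹) ^ (r * 0) • P ^ 0 := by
    rw [hP, mul_comm r n, pow_mul, inv_pow, hζ.pow_eq_one]
    simp
  rw [h2, h0] at h1
  exact (add_right_cancel h1).symm

theorem mul_specProj (hP : P ^ n = 1) (hζ : IsPrimitiveRoot ζ n) (hn : 0 < n) (r : ℕ) :
    P * specProj P n ζ r = ζ ^ r • specProj P n ζ r := by
  unfold specProj
  rw [Matrix.mul_smul, pow_mul_specProj_aux P n ζ hP hζ hn r, smul_comm]

theorem pow_mul_specProj (hP : P ^ n = 1) (hζ : IsPrimitiveRoot ζ n) (hn : 0 < n) (r k : ℕ) :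
    P ^ k * specProj P n ζ r = ζ ^ (r * k) • specProj P n ζ r := by
  induction k with
  | zero => simp
  | succ k ih =>
    rw [pow_succ, Matrix.mul_assoc, mul_specProj P n ζ hP hζ hn r, Matrix.mul_smul, ih, smul_smul,
      mul_add, mul_one, pow_add, mul_comm]

theorem specProj_mul_specProj (hP : P ^ n = 1) (hζ : IsPrimitiveRoot ζ n) {r s : ℕ}
    (hr : r < n) (hs : s < n) :
    specProj P n ζ r * specProj P n ζ s = if r = s then specProj P n ζ s else 0 := by
  have hn : 0 < n := by omega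
  have hnK : (n : K) ≠ 0 := by
    have : NeZero n := ⟨hn.ne'⟩
    exact (hζ.neZero' (R := K)).ne
  conv_lhs => rw [specProj]
  rw [Matrix.smul_mul, Finset.sum_mul]
  simp_rw [Matrix.smul_mul, pow_mul_specProj P n ζ hP hζ hn, smul_smul]
  rw [← Finset.sum_smul, sum_root_pow hζ hr hs]
  split_ifs with h
  · rw [smul_smul, inv_mul_cancel₀ hnK, one_smul]
  · simp

theorem sum_specProj (hζ : IsPrimitiveRoot ζ n) (hn : 0 < n) :
    ∑ r ∈ range n, specProj P n ζ r = 1 := by
  have hnK : (n : K) ≠ 0 := by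
    have : NeZero n := ⟨hn.ne'⟩
    exact (hζ.neZero' (R := K)).ne
  unfold specProj
  rw [← Finset.smul_sum, Finset.sum_comm]
  simp_rw [← Finset.sum_smul]
  have hk : ∀ k ∈ range n, (∑ r ∈ range n, (ζ⁻¹) ^ (r * k)) • P ^ k =
      if k = 0 then (n : K) • (1 : Matrix X X K) else 0 := by
    intro k hk
    have hk' : k < n := Finset.mem_range.mp hk
    have := sum_root_pow hζ hk' hn (K := K)
    simp only [zero_mul, pow_zero, mul_one] at this
    have h2 : ∑ r ∈ range n, (ζ⁻¹) ^ (r * k) = ∑ r ∈ range n, (ζ⁻¹) ^ (k * r) := by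
      refine Finset.sum_congr rfl fun r _ => by rw [mul_comm]
    rw [h2, this]
    split_ifs with h
    · subst h; simp
    · simp
  rw [Finset.sum_congr rfl hk, Finset.sum_ite_eq' (range n) 0, if_pos (Finset.mem_range.mpr hn),
    smul_smul, inv_mul_cancel₀ hnK, one_smul]

theorem specProj_idem (hP : P ^ n = 1) (hζ : IsPrimitiveRoot ζ n) {r : ℕ} (hr : r < n) :
    specProj P n ζ r * specProj P n ζ r = specProj P n ζ r := by
  rw [specProj_mul_specProj P n ζ hP hζ hr hr, if_pos rfl]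

theorem specProj_orth (hP : P ^ n = 1) (hζ : IsPrimitiveRoot ζ n) {r s : ℕ}
    (hr : r < n) (hs : s < n) (hrs : r ≠ s) :
    specProj P n ζ r * specProj P n ζ s = 0 := by
  rw [specProj_mul_specProj P n ζ hP hζ hr hs, if_neg hrs]

theorem specProj_mul (hP : P ^ n = 1) (hζ : IsPrimitiveRoot ζ n) (hn : 0 < n) (r : ℕ) :
    specProj P n ζ r * P = ζ ^ r • specProj P n ζ r := by
  rw [← mul_specProj P n ζ hP hζ hn r]
  unfold specProj
  rw [Matrix.smul_mul, Matrix.mul_smul, Finset.sum_mul, Finset.mul_sum]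
  congr 1
  refine Finset.sum_congr rfl fun k _ => ?_
  rw [Matrix.smul_mul, Matrix.mul_smul, ← pow_succ, ← pow_succ']

theorem trace_specProj (r : ℕ) :
    trace (specProj P n ζ r) = (n : K)⁻¹ * ∑ k ∈ range n, (ζ⁻¹) ^ (r * k) * trace (P ^ k) := by
  unfold specProj
  rw [trace_smul, trace_sum, smul_eq_mul]
  simp_rw [trace_smul, smul_eq_mul]

end Proj

end Fermat.Agent.S21.ECount
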